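/-
S37 / helper400 — KRON bridge between the two formal Kronecker libraries on main
(`Fermat.Agent.S37.H340` of helper340 and `Fermat.Agent.S37.H400`) and the twist-product form
of the norm used by the NORM-ID pieces (helper819 et al.).

* `secL_eq_sect`, `secMat_eq_kronMat`, `charpoly_secMat_eq_kron`, `kronPoly_eq_mul_kron` :
    the two libraries define the SAME section matrix / Kronecker polynomial.
* `qExpand_det_secMat_eq_prod` : over a domain with a primitive `ℓ`-th root of unity `ζ`,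
    `V_ℓ (det (secMat ℓ f)) = ∏_b f(ζ^b q)`.
* `qExpand_kronNorm_eq_prod` : `V_ℓ (kronNorm ℓ f) = V_ℓ (V_ℓ f) * ∏_b f(ζ^b q)`.
* `eq_kronNorm_of_qExpand_eq_prod` : ANY series `n` with `V_ℓ n = V_ℓ (V_ℓ f) * ∏_b f(ζ^b q)`
    (e.g. the q-expansion of `Nm_α (β f)`, by NORM-ID) equals `kronNorm ℓ f`.
* `coeffMap_eq_of_qExpand_eq_prod` : hence, for `f = coeffMap ι y` with `y ∈ A((q))`, `ι` injective,
    and a reduction `π : A → k` to a domain of characteristic `ℓ`:
    `n = coeffMap ι (kronNorm ℓ y)` and `coeffMap π (kronNorm ℓ y) = V_ℓ ȳ * frob ȳ`.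
-/
import Fermat.Agent.S37.H400.KronNorm
import Fermat.Agent.S37.H340.KronTwist

set_option autoImplicit false

noncomputable section

set_option linter.style.haveILetI false

open ModularCurve Polynomial Matrix

namespace Fermat.Agent.S37.H400

variable {R : Type*} [CommRing R]

theorem secL_eq_sect (p : ℕ) [NeZero p] (r : ℤ) (f : LaurentSeries R) :
    secL p r f = H340.sect p r f := by
  ext m
  rw [secL_coeff, H340.sect_coeff]

theorem secMat_eq_kronMat (p : ℕ) [NeZero p] (f : LaurentSeries R) :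
    secMat p f = H340.kronMat p f := by
  ext i' i : 2
  rw [secMat_apply', H340.kronMat_apply, secL_eq_sect]

theorem charpoly_secMat_eq_kron (p : ℕ) [NeZero p] (f : LaurentSeries R) :
    (secMat p f).charpoly = H340.kron p f := by
  rw [H340.kron, secMat_eq_kronMat]

theorem kronPoly_eq_mul_kron (p : ℕ) [NeZero p] (f : LaurentSeries R) :
    kronPoly p f = (X - C (qExpand R p f)) * H340.kron p f := by
  rw [kronPoly, charpoly_secMat_eq_kron]

/-- Twist-product form of the determinant of the section matrix. -/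
theorem qExpand_det_secMat_eq_prod [IsDomain R] (p : ℕ) [NeZero p] {ζ : R}
    (hζ : IsPrimitiveRoot ζ p) (f : LaurentSeries R) :
    qExpand R p (secMat p f).det = ∏ b : Fin p, H340.tw p (ζ ^ (b : ℕ)) f := by
  have h := H340.kron_map_qExpand_eq_prod hζ f
  have h0 := congrArg (fun P : (LaurentSeries R)[X] => P.coeff 0) h
  simp only [Polynomial.coeff_map] at h0
  rw [← charpoly_secMat_eq_kron] at h0
  have hprod : (∏ b : Fin p, (X - C (H340.tw p (ζ ^ (b : ℕ)) f))).coeff 0 =
      (-1) ^ p * ∏ b : Fin p, H340.tw p (ζ ^ (b : ℕ)) f := by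
    rw [Polynomial.coeff_zero_eq_eval_zero, Polynomial.eval_prod]
    simp only [eval_sub, eval_X, eval_C, zero_sub]
    rw [Finset.prod_neg]
    simp
  rw [hprod] at h0
  rw [Matrix.det_eq_sign_charpoly_coeff, Fintype.card_fin, map_mul, map_pow, map_neg, map_one,
    h0, ← mul_assoc, ← mul_pow]
  simp

/-- Twist-product form of the Kronecker norm:
`V_ℓ (kronNorm ℓ f) = f(q^{ℓ²}) · ∏_b f(ζ^b q)`. -/
theorem qExpand_kronNorm_eq_prod [IsDomain R] (p : ℕ) [NeZero p] {ζ : R}
    (hζ : IsPrimitiveRoot ζ p) (f : LaurentSeries R) :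
    qExpand R p (kronNorm p f) =
      qExpand R p (qExpand R p f) * ∏ b : Fin p, H340.tw p (ζ ^ (b : ℕ)) f := by
  rw [kronNorm, map_mul, qExpand_det_secMat_eq_prod p hζ]

/-- Any series whose `V_ℓ`-image is the twist product is the Kronecker norm. -/
theorem eq_kronNorm_of_qExpand_eq_prod [IsDomain R] (p : ℕ) [NeZero p] {ζ : R}
    (hζ : IsPrimitiveRoot ζ p) (f n : LaurentSeries R)
    (hn : qExpand R p n =
      qExpand R p (qExpand R p f) * ∏ b : Fin p, H340.tw p (ζ ^ (b : ℕ)) f) :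
    n = kronNorm p f :=
  qExpand_injective (R := R) (N := p) (by rw [hn, qExpand_kronNorm_eq_prod p hζ])

/-- **Integrality and reduction of a norm given in twist-product form.**
`ι : A → K` injective (`A` a valuation ring of the field `K`), `π : A → k` a reduction to a
domain of characteristic `ℓ`.  If `n ∈ K((q))` has `V_ℓ n = f(q^{ℓ²}) ∏_b f(ζ^b q)` for
`f = coeffMap ι y`, `y ∈ A((q))`, then `n` is `A`-integral, `n = coeffMap ι (kronNorm ℓ y)`, and
the reduction of `kronNorm ℓ y` is `V_ℓ ȳ · frob ȳ`. -/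
theorem coeffMap_eq_of_qExpand_eq_prod {A K k : Type*} [CommRing A] [CommRing K] [IsDomain K]
    [CommRing k] [IsDomain k] (ℓ : ℕ) [Fact ℓ.Prime] [CharP k ℓ] (ι : A →+* K) (π : A →+* k)
    {ζ : K} (hζ : haveI : NeZero ℓ := ⟨(Fact.out : ℓ.Prime).ne_zero⟩; IsPrimitiveRoot ζ ℓ)
    (y : LaurentSeries A) (n : LaurentSeries K)
    (hn : haveI : NeZero ℓ := ⟨(Fact.out : ℓ.Prime).ne_zero⟩;
      qExpand K ℓ n = qExpand K ℓ (qExpand K ℓ (coeffMap ι y)) *
        ∏ b : Fin ℓ, H340.tw ℓ (ζ ^ (b : ℕ)) (coeffMap ι y)) :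
    haveI : NeZero ℓ := ⟨(Fact.out : ℓ.Prime).ne_zero⟩
    n = coeffMap ι (kronNorm ℓ y) ∧
      coeffMap π (kronNorm ℓ y) =
        qExpand k ℓ (coeffMap π y) * coeffMap (frobenius k ℓ) (coeffMap π y) := by
  haveI : NeZero ℓ := ⟨(Fact.out : ℓ.Prime).ne_zero⟩
  show n = coeffMap ι (kronNorm ℓ y) ∧
      coeffMap π (kronNorm ℓ y) =
        qExpand k ℓ (coeffMap π y) * coeffMap (frobenius k ℓ) (coeffMap π y)
  refine ⟨?_, coeffMap_kronNorm_char ℓ π y⟩
  rw [coeffMap_kronNorm]
  exact eq_kronNorm_of_qExpand_eq_prod ℓ hζ _ n hn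

end Fermat.Agent.S37.H400

end
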