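import Fermat.Agent.S37.H508.RimCharts
import Fermat.Agent.S37.H277.GalInt
import Fermat.Agent.Lib.FF398.Hecke

/-!
# S37 / node_rim (helper400): the covering fields `cover_P`, `cover_Q` of the two modular charts

Fields `cover_P`, `cover_Q` of helper508's `RimSkel.lean` (`H518.TwoCharts` for the charts
`finChart A N`, `infChart A N` of `H508/RimCharts.lean`):

* `rim_cover_P` : every place `P` of `F = ℚ̄(X₀(N))` is centred, with values in `A`, on the chart
  `j ≠ ∞` or on the chart `j ≠ 0`  (if `j(P) ∈ A` take the first chart, otherwise `j⁻¹(P) ∈ A`);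
* `rim_cover_Q` : every place `Q` of `F_k` is centred on one of the two charts.

Generic cores: `pc_of_hasValue` (values of functions integral over `A[u]` lie in `A` as soon as
`u(P) ∈ A`; from helper277's `exists_hasValue_of_integral`) and `qc_of_mem` (valuation rings are
integrally closed).
-/

set_option autoImplicit false
set_option linter.style.haveILetI false
set_option linter.unusedSectionVars false
set_option synthInstance.maxHeartbeats 400000

noncomputable section

namespace Fermat.Agent.S37.H400

open ModularCurve HahnSeries AlgebraicCurve Polynomial Fermat.Agent.S37.H518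
open Fermat.Agent.S37.H508 Fermat.Agent.S24.H504 Fermat.Agent.S37.Core

section Generic

variable {K F : Type*} [Field K] [Field F] [Algebra K F]

/-- `HasValue P f b` (membership in the nonunits) gives `InMax P (f - b)`. -/
theorem inMax_sub_of_hasValue {P : Place K F} {f : F} {b : K} (h : HasValue P f b) :
    InMax P (f - algebraMap K F b) := by
  obtain ⟨hmem, hmax⟩ := ValuationSubring.mem_nonunits_iff_exists_mem_maximalIdeal.mp h
  exact (inMax_iff_mem_maximalIdeal (v := P) ⟨_, hmem⟩).mpr hmax

/-- Valuation rings are integrally closed: if `y ∈ A((q))` is integral over `A[u]` and the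
reduction of `u` is regular at a place `Q` of `F_k ⊆ k((q))`, so is the reduction of `y`. -/
theorem mem_of_intOverS_red {L : Type*} [Field L] (A : ValuationSubring L) {k : Type*} [Field k]
    (π : A →+* k) {Fk : IntermediateField k (LaurentSeries k)} (Q : Place k Fk)
    (u y : LaurentSeries A) (hu : coeffMap π u ∈ Fk) (hy : coeffMap π y ∈ Fk)
    (h : IntOverS u y) (huQ : (⟨coeffMap π u, hu⟩ : Fk) ∈ Q.toValuationSubring) :
    (⟨coeffMap π y, hy⟩ : Fk) ∈ Q.toValuationSubring := by
  classical
  obtain ⟨p, hp, h0⟩ := h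
  -- the ring homomorphism `A[X] → O_Q`, `X ↦ ρ u`
  let ι₀ : A →+* Q.toValuationSubring := (algebraMap k Q.toValuationSubring).comp π
  let ψ : Polynomial A →+* Q.toValuationSubring :=
    Polynomial.eval₂RingHom ι₀ ⟨⟨coeffMap π u, hu⟩, huQ⟩
  have hcomp : (Fk.val.toRingHom.comp (Q.toValuationSubring.subtype.comp ψ)) =
      (coeffMap π).comp (evalS u) := by
    apply Polynomial.ringHom_ext
    · intro c
      rw [RingHom.comp_apply, RingHom.comp_apply, RingHom.comp_apply, evalS_C,
        coeffMap_pi_C]
      show ((ψ (Polynomial.C c) : Q.toValuationSubring) : Fk).1 = _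
      rw [Polynomial.coe_eval₂RingHom, Polynomial.eval₂_C]
      rfl
    · rw [RingHom.comp_apply, RingHom.comp_apply, RingHom.comp_apply, evalS_X]
      show ((ψ Polynomial.X : Q.toValuationSubring) : Fk).1 = _
      rw [Polynomial.coe_eval₂RingHom, Polynomial.eval₂_X]
  have h1 : p.eval₂ (Fk.val.toRingHom.comp (Q.toValuationSubring.subtype.comp ψ))
      (coeffMap π y) = 0 := by
    rw [hcomp]
    have h := congrArg (coeffMap π) h0
    rwa [Polynomial.hom_eval₂, map_zero] at h
  have h2 : p.eval₂ (Q.toValuationSubring.subtype.comp ψ) (⟨coeffMap π y, hy⟩ : Fk) = 0 := by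
    have h := Polynomial.hom_eval₂ p (Q.toValuationSubring.subtype.comp ψ) Fk.val.toRingHom
      (⟨coeffMap π y, hy⟩ : Fk)
    have h' : Fk.val.toRingHom (⟨coeffMap π y, hy⟩ : Fk) = coeffMap π y := rfl
    rw [h', h1] at h
    exact (map_eq_zero_iff _ Fk.val.toRingHom.injective).mp h
  have hint : IsIntegral Q.toValuationSubring (⟨coeffMap π y, hy⟩ : Fk) := by
    refine ⟨p.map ψ, hp.map ψ, ?_⟩
    rw [Polynomial.eval₂_map]
    exact h2
  obtain ⟨z, hz⟩ := IsIntegrallyClosed.isIntegral_iff.mp hint
  rw [← hz]
  exact z.2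

end Generic

variable (N : ℕ) [NeZero N] (A : ValuationSubring (AlgebraicClosure ℚ))

local notation "πA" => IsLocalRing.residue A
local notation "kA" => IsLocalRing.ResidueField A
local notation "Fb" => modularFunctionFieldBar N
local notation "Fk" => modularFunctionFieldFullC kA N
local notation "ιA" => iotaF A πA N
local notation "ρA" => rhoF A πA N

/-- If `u(P) ∈ A` and every element of the chart `B` is integral over `A[u]`, then `P` is centred
on `B` with values in `A`. -/
theorem pc_of_hasValue (P : Place (AlgebraicClosure ℚ) Fb) (u : IntFun A πA N)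
    (B : Subalgebra A (IntFun A πA N))
    (hB : ∀ b ∈ B, IntOverS (u : LaurentSeries A) (b : LaurentSeries A))
    (a : A) (ha : HasValue P (ιA u) (a : AlgebraicClosure ℚ)) : PC ιA B P := by
  intro b hb
  obtain ⟨p, hp, h0⟩ := hB b hb
  obtain ⟨b', hb'⟩ := Fermat.Agent.S37.H277.exists_hasValue_of_integral A P
    (Fermat.Agent.Lib.FF398.deg_eq_one_FF N P) (u : LaurentSeries A) (b : LaurentSeries A)
    u.2.1 b.2.1 p hp h0 a ha
  exact ⟨b', inMax_sub_of_hasValue hb'⟩

/-- **Field `cover_P` of `RimSkel`** (exact type). -/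
theorem rim_cover_P (P : Place (AlgebraicClosure ℚ) Fb) :
    PC ιA (finChart A N) P ∨ PC ιA (infChart A N) P := by
  have hdeg := Fermat.Agent.Lib.FF398.deg_eq_one_FF N P
  have hmul : ιA (jInt A N) * ιA (jInvInt A N) = 1 := by
    rw [← map_mul, jInt_mul_jInvInt, map_one]
  have hinv : (ιA (jInt A N))⁻¹ = ιA (jInvInt A N) := inv_eq_of_mul_eq_one_right hmul
  by_cases hj : ιA (jInt A N) ∈ P.toValuationSubring
  · obtain ⟨c, hc⟩ := Fermat.Agent.S37.H277.exists_hasValue hdeg hj
    by_cases hcA : c ∈ A
    · left
      exact pc_of_hasValue N A P (jInt A N) (finChart A N) (fun b hb => hb) ⟨c, hcA⟩ hc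
    · right
      have hc0 : c ≠ 0 := by
        rintro rfl
        exact hcA A.zero_mem
      have hcinv : c⁻¹ ∈ A := (A.mem_or_inv_mem c).resolve_left hcA
      have hv := Fermat.Agent.S37.H277.hasValue_inv hc hc0
      rw [hinv] at hv
      exact pc_of_hasValue N A P (jInvInt A N) (infChart A N) (fun b hb => hb) ⟨c⁻¹, hcinv⟩ hv
  · right
    have hv := Fermat.Agent.S37.H277.hasValue_inv_zero_of_not_mem hj
    rw [hinv] at hv
    exact pc_of_hasValue N A P (jInvInt A N) (infChart A N) (fun b hb => hb) 0 hv

/-- If `ρ u` is regular at `Q` and every element of the chart `B` is integral over `A[u]`, then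
`Q` is centred on `B`. -/
theorem qc_of_mem (Q : Place kA Fk) (u : IntFun A πA N) (B : Subalgebra A (IntFun A πA N))
    (hB : ∀ b ∈ B, IntOverS (u : LaurentSeries A) (b : LaurentSeries A))
    (hu : ρA u ∈ Q.toValuationSubring) : QC ρA B Q := by
  intro b hb
  rw [← mem_iff_ord_nonneg']
  exact mem_of_intOverS_red A πA Q (u : LaurentSeries A) (b : LaurentSeries A) u.2.2 b.2.2
    (hB b hb) hu

/-- **Field `cover_Q` of `RimSkel`** (exact type). -/
theorem rim_cover_Q (Q : Place kA Fk) :
    QC ρA (finChart A N) Q ∨ QC ρA (infChart A N) Q := by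
  have hmul : ρA (jInt A N) * ρA (jInvInt A N) = 1 := by
    rw [← map_mul, jInt_mul_jInvInt, map_one]
  have hinv : (ρA (jInt A N))⁻¹ = ρA (jInvInt A N) := inv_eq_of_mul_eq_one_right hmul
  by_cases hj : ρA (jInt A N) ∈ Q.toValuationSubring
  · left
    exact qc_of_mem N A Q (jInt A N) (finChart A N) (fun b hb => hb) hj
  · right
    have h := (Q.toValuationSubring.mem_or_inv_mem (ρA (jInt A N))).resolve_left hj
    rw [hinv] at h
    exact qc_of_mem N A Q (jInvInt A N) (infChart A N) (fun b hb => hb) h

end Fermat.Agent.S37.H400
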