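import Fermat.Agent.S37.H508.RimCharts

/-!
# S37 / node_rim (helper400): the transition fields `trans01`, `trans10` of the two modular charts

Fields `trans01`, `trans10` of helper508's `RimSkel.lean` (`H518.TwoCharts` for the charts
`finChart A N`, `infChart A N` of `H508/RimCharts.lean`):

* `rim_trans01` : `b` integral over `A[j⁻¹]`  ⟹  `b * j ^ n` integral over `A[j]` for some `n`;
* `rim_trans10` : `b` integral over `A[j]`    ⟹  `b * j⁻¹ ^ n` integral over `A[j⁻¹]`.

Generic core: `intOverS_mul_pow_of_mul_eq_one` (any commutative ring `R`, any `u x : R((q))` with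
`u * x = 1`), by Mathlib's `IsIntegral.exists_multiple_integral_of_isLocalization` applied to
`R[X] → R[X, X⁻¹] → R((q))`, `X ↦ x`.
-/

set_option autoImplicit false
set_option linter.style.haveILetI false
set_option linter.unusedSectionVars false

noncomputable section

namespace Fermat.Agent.S37.H400

open ModularCurve HahnSeries AlgebraicCurve Polynomial Fermat.Agent.S37.H518
open Fermat.Agent.S37.H508

section Generic

variable {R : Type*} [CommRing R]

/-- If `u * x = 1` in `R((q))` and `y` is integral over `R[u]`, then `y * x ^ n` is integral over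
`R[x]` for some `n`. -/
theorem intOverS_mul_pow_of_mul_eq_one {u x y : LaurentSeries R} (hux : u * x = 1)
    (hy : IntOverS u y) : ∃ n : ℕ, IntOverS x (y * x ^ n) := by
  classical
  -- `R[X]` acts on `R((q))` through `X ↦ x`
  letI algRS : Algebra R[X] (LaurentSeries R) := (evalS x).toAlgebra
  have halg : algebraMap R[X] (LaurentSeries R) = evalS x := rfl
  have hunit : IsUnit (evalS x (X : R[X])) := by
    rw [evalS_X]
    exact IsUnit.of_mul_eq_one u (by rw [mul_comm]; exact hux)
  -- the localization `R[X, X⁻¹]` acts as well
  let lift : Localization.Away (X : R[X]) →+* LaurentSeries R :=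
    IsLocalization.Away.lift (X : R[X]) hunit
  letI algLS : Algebra (Localization.Away (X : R[X])) (LaurentSeries R) := lift.toAlgebra
  have hlift : algebraMap (Localization.Away (X : R[X])) (LaurentSeries R) = lift := rfl
  haveI : IsScalarTower R[X] (Localization.Away (X : R[X])) (LaurentSeries R) :=
    IsScalarTower.of_algebraMap_eq' (IsLocalization.Away.lift_comp (X : R[X]) hunit).symm
  -- the map `X ↦ X⁻¹`
  let φ : R[X] →+* Localization.Away (X : R[X]) :=
    Polynomial.eval₂RingHom ((algebraMap R[X] (Localization.Away (X : R[X]))).comp Polynomial.C)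
      (IsLocalization.Away.invSelf (X : R[X]) : Localization.Away (X : R[X]))
  have hφX : lift (φ X) = u := by
    have h1 : lift (φ X) * x = 1 := by
      have h2 : lift (algebraMap R[X] (Localization.Away (X : R[X])) X) = x := by
        have := IsLocalization.Away.lift_eq (S := Localization.Away (X : R[X])) (X : R[X]) hunit
          (X : R[X])
        rw [evalS_X] at this
        exact this
      have h3 : φ X = (IsLocalization.Away.invSelf (X : R[X]) :
          Localization.Away (X : R[X])) := by
        simp [φ]
      rw [h3]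
      conv_lhs => rw [← h2]
      rw [← map_mul, mul_comm, IsLocalization.Away.mul_invSelf, map_one]
    calc lift (φ X) = lift (φ X) * (x * u) := by rw [mul_comm x u, hux, mul_one]
      _ = (lift (φ X) * x) * u := by ring
      _ = u := by rw [h1, one_mul]
  have hcomp : lift.comp φ = evalS u := by
    apply Polynomial.ringHom_ext
    · intro a
      have h1 : φ (Polynomial.C a) = algebraMap R[X] (Localization.Away (X : R[X]))
          (Polynomial.C a) := by
        simp [φ]
      rw [RingHom.comp_apply, h1, evalS_C]
      have := IsLocalization.Away.lift_eq (S := Localization.Away (X : R[X])) (X : R[X]) hunit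
        (Polynomial.C a)
      rw [evalS_C] at this
      exact this
    · rw [RingHom.comp_apply, hφX, evalS_X]
  -- `y` is integral over the localization
  have hyL : IsIntegral (Localization.Away (X : R[X])) y := by
    obtain ⟨p, hp, hp0⟩ := hy
    refine ⟨p.map φ, hp.map φ, ?_⟩
    rw [hlift, Polynomial.eval₂_map, hcomp]
    exact hp0
  obtain ⟨⟨m, n, hn⟩, hm⟩ :=
    IsIntegral.exists_multiple_integral_of_isLocalization (Submonoid.powers (X : R[X])) y hyL
  refine ⟨n, ?_⟩
  have h4 : (⟨m, n, hn⟩ : Submonoid.powers (X : R[X])) • y = y * x ^ n := by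
    rw [Submonoid.smul_def, Algebra.smul_def, halg]
    show evalS x m * y = _
    have hn' : (X : R[X]) ^ n = m := hn
    rw [← hn', map_pow, evalS_X, mul_comm]
  rw [h4] at hm
  exact hm

end Generic

variable (N : ℕ) [NeZero N] (A : ValuationSubring (AlgebraicClosure ℚ))

/-- **Field `trans01` of `RimSkel`** (exact type): `b` integral over `A[j⁻¹]` ⟹ `b jⁿ` integral
over `A[j]`. -/
theorem rim_trans01 (b : IntFun A (IsLocalRing.residue A) N) (hb : b ∈ infChart A N) :
    ∃ n : ℕ, b * jInt A N ^ n ∈ finChart A N := by
  have hb' : IntOverS (jInvS A) (b : LaurentSeries A) := hb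
  obtain ⟨n, hn⟩ := intOverS_mul_pow_of_mul_eq_one (jInvS_mul_jqModC A) hb'
  exact ⟨n, hn⟩

/-- **Field `trans10` of `RimSkel`** (exact type): `b` integral over `A[j]` ⟹ `b j⁻ⁿ` integral
over `A[j⁻¹]`. -/
theorem rim_trans10 (b : IntFun A (IsLocalRing.residue A) N) (hb : b ∈ finChart A N) :
    ∃ n : ℕ, b * jInvInt A N ^ n ∈ infChart A N := by
  have hb' : IntOverS (jqModC A) (b : LaurentSeries A) := hb
  obtain ⟨n, hn⟩ := intOverS_mul_pow_of_mul_eq_one (jqModC_mul_jInvS A) hb'
  exact ⟨n, hn⟩

end Fermat.Agent.S37.H400
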